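import Fermat.Agent.GAL.Module
import Fermat.Agent.GAL.AN.Main
import Fermat.Agent.GAL.HK.Bridge
import Fermat.Agent.GAL.HK.CohBasic
import Fermat.Agent.GAL.HK.CohEigen
import Fermat.Agent.GAL.Cheb.Export
import Fermat.Agent.GAL.ASM.S29AlgClosed

/-!
# GAL : S29 from the key lemma alone (all the other blocks are landed)
-/

set_option autoImplicit false

open ModularCurve AlgebraicCurve CongruenceSubgroup

namespace Fermat.Agent.GAL

theorem hgmStatement_of_keyLemma (hK : KeyLemmaStatement) : HgmStatement := by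
  intro M n _ _ hM
  obtain ⟨H, Ψ, hΨ, hT⟩ := exists_hgm_of hK M n hM (exists_anPackage M n hM)
  exact ⟨H.V, H.acg, H.mod, H.gal, H.T, H.comm, H.smooth, H.es, H.inertia, Ψ, hΨ, hT⟩

/-- **S29 from the key lemma.** -/
theorem S29_of_keyLemma (hK : KeyLemmaStatement)
    {N : ℕ} {g : CuspForm (CongruenceSubgroup.Gamma0 N) 2} (hg : g.IsNormalizedEigenform)
    {p : ℕ} (hp : p.Prime) {k : Type} [Field k] [CharP k p]
    (φ : integralClosure ℤ ℂ →+* k) :
    ∃ ρ : ResidualGaloisRep k, ρ.IsAttachedTo g φ ∧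
      ∀ ℓ : ℕ, ℓ.Prime → ¬ ℓ ∣ N * p → ρ.IsUnramifiedAt ℓ :=
  S29_of_contracts
    (fun M ℓ _ hℓ hℓM _ _ P γ => heckeCoh_apply M ℓ hℓ hℓM P γ)
    (fun M ℓ _ hℓ hℓM _ _ P hP => heckeCoh_isParabolicHom M ℓ hℓ hℓM P hP)
    (fun hNM _ hg _ _ φ => coh_eigen hNM hg φ)
    (hgmStatement_of_keyLemma hK) Cheb.weakChebotarev_asm hg hp φ

end Fermat.Agent.GAL
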